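/-
S55 / 32-SECOND-INEQ, concrete half (helper57): auxiliary primes, part (A).

For a number field `K ∋ ζ_p` and `u ∈ 𝓞 K`, `u ≠ 0`, not a `p`-th power in `K`, the set
`Split27.nonResSet K p u` of degree-one primes `Q ∤ p` of `K` modulo which `u` is not a `p`-th power
is INFINITE.  This is a direct corollary of the analytic density package that is already part of the
landed `S14` closure (`Split27.nonRes_density`, `Euler23.exists_bound_tsum_pN`,
`DensWire27.extHyp`, `DensWire27.e2Hyp`): the prime sum over that set is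
`≥ (1 - 1/p) log (1/(s-1)) - C` on `(1,2]`, whereas a finite set of primes contributes at most its
cardinality.
-/
import Mathlib
import Fermat.Agent.S14.DensFinal27

set_option autoImplicit false

namespace Fermat.Agent.S55.AuxPrimes57

open NumberField IsDedekindDomain
open Fermat.Agent.S14 Fermat.Agent.S14.Split27 Fermat.Agent.S14.DensWire27

/-- The density lower bound for `nonResSet K p u`, with all analytic inputs discharged. -/
theorem nonRes_lower_bound {K : Type} [Field K] [NumberField K] {p : ℕ} [Fact p.Prime]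
    {ζ : K} (hζ : IsPrimitiveRoot ζ p) (u : 𝓞 K) (hu : u ≠ 0)
    (hnot : ¬ ∃ v : K, v ^ p = (u : K)) :
    ∃ C : ℝ, ∀ s : ℝ, 1 < s → s ≤ 2 →
      (1 - 1 / (p : ℝ)) * Real.log (1 / (s - 1)) - C ≤ ∑' Q : nonResSet K p u, nrmPow K s Q := by
  have hpp : p.Prime := Fact.out
  haveI : NeZero p := ⟨hpp.ne_zero⟩
  obtain ⟨L, _, _, _, _, hdeg, β, σ, hβ, hσ⟩ := extHyp K p ζ hζ u hu hnot
  obtain ⟨CK, hCK⟩ := Euler23.exists_bound_tsum_pN K
  obtain ⟨CL, hCL⟩ := Euler23.exists_bound_tsum_pN L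
  have hK : ∃ C : ℝ, ∀ s : ℝ, 1 < s → s ≤ 2 →
      Summable (nrmPow K s) ∧ Real.log (1 / (s - 1)) - C ≤ ∑' Q, nrmPow K s Q := by
    refine ⟨CK, fun s hs1 hs2 => ⟨Euler23.summable_pN hs1, ?_⟩⟩
    have := (abs_le.mp (hCK s hs1 hs2)).1
    have h2 : ∑' Q : HeightOneSpectrum (𝓞 K), Euler23.pN Q s = ∑' Q, nrmPow K s Q := rfl
    linarith
  have hL : ∃ C : ℝ, ∀ s : ℝ, 1 < s → s ≤ 2 →
      Summable (nrmPow L s) ∧ ∑' P, nrmPow L s P ≤ Real.log (1 / (s - 1)) + C := by
    refine ⟨CL, fun s hs1 hs2 => ⟨Euler23.summable_pN hs1, ?_⟩⟩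
    have := (abs_le.mp (hCL s hs1 hs2)).2
    have h2 : ∑' Q : HeightOneSpectrum (𝓞 L), Euler23.pN Q s = ∑' Q, nrmPow L s Q := rfl
    linarith
  have hζ' : IsPrimitiveRoot hζ.toInteger p := hζ.toInteger_isPrimitiveRoot
  exact nonRes_density hdeg hζ' hu hβ σ hσ hK hL (e2Hyp K)

/-- **(A)** `K ∋ ζ_p`, `u ∈ 𝓞 K` nonzero and not a `p`-th power in `K`: there are infinitely many
degree-one primes `Q ∤ p` of `K` modulo which `u` is not a `p`-th power. -/
theorem infinite_nonResSet {K : Type} [Field K] [NumberField K] {p : ℕ} [Fact p.Prime]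
    {ζ : K} (hζ : IsPrimitiveRoot ζ p) (u : 𝓞 K) (hu : u ≠ 0)
    (hnot : ¬ ∃ v : K, v ^ p = (u : K)) :
    (nonResSet K p u).Infinite := by
  have hpp : p.Prime := Fact.out
  intro hfin
  obtain ⟨C, hC⟩ := nonRes_lower_bound hζ u hu hnot
  -- a finite set of primes contributes at most its cardinality
  have hup : ∀ s : ℝ, 1 < s → s ≤ 2 →
      ∑' Q : nonResSet K p u, nrmPow K s Q ≤ ((nonResSet K p u).ncard : ℝ) := by
    intro s hs1 _
    rw [tsum_subtype (nonResSet K p u) (nrmPow K s)]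
    exact tsum_indicator_le_ncard K (by linarith) hfin
  set c : ℝ := 1 - 1 / (p : ℝ) with hc
  have hc0 : 0 < c := by
    have h2 : (2 : ℝ) ≤ p := by exact_mod_cast hpp.two_le
    have : 1 / (p : ℝ) ≤ 1 / 2 := by
      apply one_div_le_one_div_of_le (by norm_num) h2
    rw [hc]; linarith
  set B : ℝ := (C + ((nonResSet K p u).ncard : ℝ) + 1) / c with hB
  -- choose `s` with `log (1/(s-1)) > B`
  set t : ℝ := max B 0 + 1 with ht
  have ht1 : 1 ≤ t := by
    have : 0 ≤ max B 0 := le_max_right _ _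
    linarith
  set s : ℝ := 1 + Real.exp (-t) with hs
  have hs1 : 1 < s := by
    have := Real.exp_pos (-t); linarith
  have hs2 : s ≤ 2 := by
    have : Real.exp (-t) ≤ 1 := by
      rw [Real.exp_le_one_iff]; linarith
    linarith
  have hlog : Real.log (1 / (s - 1)) = t := by
    have : s - 1 = Real.exp (-t) := by rw [hs]; ring
    rw [this, one_div, ← Real.exp_neg, neg_neg, Real.log_exp]
  have h1 := hC s hs1 hs2
  have h2 := hup s hs1 hs2
  rw [hlog] at h1
  have hBt : B < t := by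
    have : B ≤ max B 0 := le_max_left _ _
    linarith
  have h3 : c * B = C + ((nonResSet K p u).ncard : ℝ) + 1 := by
    rw [hB]; field_simp
  have h4 : c * B < c * t := mul_lt_mul_of_pos_left hBt hc0
  linarith

/-- Consequence: outside any finite set of primes there is a degree-one prime `Q ∤ p` modulo
which `u` is not a `p`-th power. -/
theorem exists_nonRes_prime {K : Type} [Field K] [NumberField K] {p : ℕ} [Fact p.Prime]
    {ζ : K} (hζ : IsPrimitiveRoot ζ p) (u : 𝓞 K) (hu : u ≠ 0)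
    (hnot : ¬ ∃ v : K, v ^ p = (u : K))
    (E : Set (HeightOneSpectrum (𝓞 K))) (hE : E.Finite) :
    ∃ Q : HeightOneSpectrum (𝓞 K), Q ∉ E ∧ (Ideal.absNorm Q.asIdeal).Prime ∧
      (p : 𝓞 K) ∉ Q.asIdeal ∧ ¬ ∃ x : 𝓞 K, x ^ p - u ∈ Q.asIdeal := by
  obtain ⟨Q, hQ, hQE⟩ := ((infinite_nonResSet hζ u hu hnot).diff hE).nonempty
  exact ⟨Q, hQE, hQ.1, hQ.2.1, hQ.2.2⟩

end Fermat.Agent.S55.AuxPrimes57
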