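/-
S55 / 32-SECOND-INEQ, concrete half (helper57): auxiliary primes, part (B) = "Chebotarev-lite".

`K` a number field containing a primitive `p`-th root of unity, `H ≤ Kˣ` a subgroup containing the
`p`-th powers with finite index, `b ∉ H`.  Outside any finite set of primes there is a prime `w` of
`K` (of degree one, not dividing `p`) such that `b` is a `w`-unit and NOT a `p`-th power modulo `w`,
while every `w`-unit of `H` IS a `p`-th power modulo `w`.

Proof: `F := K(ᵖ√H)` (helper99's `Kummer99.kummerField`), `b` is not a `p`-th power in `F` by Kummer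
theory, `Infinite.exists_nonRes_prime` over `F` (the landed analytic density package of S14) gives a
degree-one prime `Q₁` of `F` with `b` a non-residue; `w := Q₁ ∩ 𝓞 K`.  No class field theory.
-/
import Mathlib
import Fermat.Agent.S55.AuxPrimes57.Infinite
import Fermat.Agent.S55.Kummer99.Field

set_option autoImplicit false

namespace Fermat.Agent.S55.AuxPrimes57

open NumberField IsDedekindDomain

/-! ### `p`-th power residues at a prime, in valuation form -/

section Res

variable {K : Type*} [Field K] [NumberField K] (p : ℕ) (w : HeightOneSpectrum (𝓞 K))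

/-- `x` is a `p`-th power modulo `w` (meaningful for `w`-integral `x`): some `p`-th power of `K` is
`w`-adically closer to `x` than `1`. -/
def IsPowRes (x : K) : Prop := ∃ y : K, w.valuation K (x - y ^ p) < 1

variable {p w}

theorem isPowRes_of_mem {u x : 𝓞 K} (h : x ^ p - u ∈ w.asIdeal) : IsPowRes p w (u : K) := by
  refine ⟨(x : K), ?_⟩
  have h1 : ((u : K) - (x : K) ^ p) = algebraMap (𝓞 K) K (u - x ^ p) := by
    simp [map_sub, map_pow]
  rw [h1, HeightOneSpectrum.valuation_lt_one_iff_mem]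
  have := w.asIdeal.neg_mem h
  rwa [neg_sub] at this

theorem valuation_pow_sub_pow_lt {a y : K} (ha : w.valuation K a ≤ 1) (hy : w.valuation K y ≤ 1)
    (h : w.valuation K (a - y) < 1) : w.valuation K (a ^ p - y ^ p) < 1 := by
  rw [← geom_sum₂_mul, map_mul]
  have hs : w.valuation K (∑ i ∈ Finset.range p, a ^ i * y ^ (p - 1 - i)) ≤ 1 := by
    apply Valuation.map_sum_le
    intro i _
    rw [map_mul, map_pow, map_pow]
    exact mul_le_one' (pow_le_one' ha _) (pow_le_one' hy _)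
  calc w.valuation K (∑ i ∈ Finset.range p, a ^ i * y ^ (p - 1 - i)) * w.valuation K (a - y)
      ≤ 1 * w.valuation K (a - y) := mul_le_mul' hs le_rfl
    _ = w.valuation K (a - y) := one_mul _
    _ < 1 := h

theorem isPowRes_algebraMap_iff (hp : p ≠ 0) (u : 𝓞 K) :
    IsPowRes p w (u : K) ↔ ∃ x : 𝓞 K, x ^ p - u ∈ w.asIdeal := by
  constructor
  · rintro ⟨y, hy⟩
    -- `y` is `w`-integral
    have hu1 : w.valuation K (u : K) ≤ 1 := w.valuation_le_one u
    have hyp : w.valuation K (y ^ p) ≤ 1 := by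
      have : y ^ p = (u : K) - ((u : K) - y ^ p) := by ring
      rw [this]
      exact (Valuation.map_sub _ _ _).trans (max_le hu1 hy.le)
    have hy1 : w.valuation K y ≤ 1 := by
      rw [map_pow] at hyp
      exact (pow_le_one_iff hp).mp hyp
    obtain ⟨a, ha⟩ := w.exists_valuation_sub_lt_of_integer (K := K) hy1 1
    have ha' : w.valuation K ((a : K) - y) < 1 := by simpa using ha
    have h2 := valuation_pow_sub_pow_lt (p := p) (w.valuation_le_one a) hy1 ha'
    refine ⟨a, ?_⟩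
    have h3 : w.valuation K ((a : K) ^ p - (u : K)) < 1 := by
      have : (a : K) ^ p - (u : K) = ((a : K) ^ p - y ^ p) - ((u : K) - y ^ p) := by ring
      rw [this]
      exact (Valuation.map_sub _ _ _).trans_lt (max_lt h2 hy)
    have h4 : ((a : K) ^ p - (u : K)) = algebraMap (𝓞 K) K (a ^ p - u) := by
      simp [map_sub, map_pow]
    rwa [h4, HeightOneSpectrum.valuation_lt_one_iff_mem] at h3
  · rintro ⟨x, hx⟩
    exact isPowRes_of_mem hx

theorem isPowRes_mul_pow_iff {x s : K} (hs : w.valuation K s = 1) :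
    IsPowRes p w (x * s ^ p) ↔ IsPowRes p w x := by
  have hs0 : s ≠ 0 := by
    rintro rfl
    simp at hs
  constructor
  · rintro ⟨y, hy⟩
    refine ⟨y / s, ?_⟩
    have : x - (y / s) ^ p = (x * s ^ p - y ^ p) / s ^ p := by
      rw [div_pow, eq_div_iff (pow_ne_zero _ hs0), sub_mul, div_mul_cancel₀ _ (pow_ne_zero _ hs0)]
    rw [this, map_div₀, map_pow, hs, one_pow, div_one]
    exact hy
  · rintro ⟨y, hy⟩
    refine ⟨y * s, ?_⟩
    have : x * s ^ p - (y * s) ^ p = (x - y ^ p) * s ^ p := by ring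
    rw [this, map_mul, map_pow, hs, one_pow, mul_one]
    exact hy

end Res

/-! ### Residue rings of prime cardinality -/

section PrimeCard

/-- In a finite ring of prime cardinality every element is a natural number. -/
theorem exists_natCast_eq_of_card_prime {R : Type*} [CommRing R] {ℓ : ℕ} (hℓ : ℓ.Prime)
    (hR : Nat.card R = ℓ) (r : R) : ∃ m : ℕ, (m : R) = r := by
  haveI : Finite R := Nat.finite_of_card_ne_zero (by rw [hR]; exact hℓ.ne_zero)
  letI : Fintype R := Fintype.ofFinite R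
  have hR' : Fintype.card R = ℓ := by rw [← Nat.card_eq_fintype_card, hR]
  let e := ZMod.ringEquivOfPrime R hℓ hR'
  haveI : NeZero ℓ := ⟨hℓ.ne_zero⟩
  refine ⟨(e.symm r).val, ?_⟩
  have h1 : ((e.symm r).val : ZMod ℓ) = e.symm r := ZMod.natCast_zmod_val _
  have h2 : e ((e.symm r).val : ZMod ℓ) = (((e.symm r).val : ℕ) : R) := map_natCast e _
  rw [← h2, h1, RingEquiv.apply_symm_apply]

end PrimeCard

/-! ### The prime of `K` below a prime of a finite extension -/

section Under

variable {K F : Type*} [Field K] [NumberField K] [Field F] [NumberField F] [Algebra K F]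

/-- The prime of `𝓞 K` below a prime of `𝓞 F`. -/
noncomputable def primeUnder (Q : HeightOneSpectrum (𝓞 F)) : HeightOneSpectrum (𝓞 K) where
  asIdeal := Q.asIdeal.comap (algebraMap (𝓞 K) (𝓞 F))
  isPrime := Ideal.comap_isPrime _ _
  ne_bot := by
    have hQ0 : Q.asIdeal ≠ ⊥ := Q.ne_bot
    obtain ⟨x, hx, hx0⟩ := Submodule.exists_mem_ne_zero_of_ne_bot hQ0
    exact Ideal.comap_ne_bot_of_integral_mem hx0 hx (Algebra.IsIntegral.isIntegral x)

theorem mem_primeUnder {Q : HeightOneSpectrum (𝓞 F)} {x : 𝓞 K} :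
    x ∈ (primeUnder (K := K) Q).asIdeal ↔ algebraMap (𝓞 K) (𝓞 F) x ∈ Q.asIdeal := Iff.rfl

end Under

/-! ### Chebotarev-lite -/

section Main

open Fermat.Agent.S55.Kummer99

variable {K : Type} [Field K] [NumberField K] {p : ℕ} [Fact p.Prime]

/-- A nonzero element of `𝓞 K` lying in every prime of a finite set. -/
theorem exists_ne_zero_mem_of_finite (E : Set (HeightOneSpectrum (𝓞 K))) (hE : E.Finite) :
    ∃ e : 𝓞 K, e ≠ 0 ∧ ∀ w ∈ E, e ∈ w.asIdeal := by
  classical
  have hch : ∀ w : HeightOneSpectrum (𝓞 K), ∃ x : 𝓞 K, x ∈ w.asIdeal ∧ x ≠ 0 := fun w =>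
    Submodule.exists_mem_ne_zero_of_ne_bot w.ne_bot
  choose c hc hc0 using hch
  refine ⟨∏ w ∈ hE.toFinset, c w, ?_, ?_⟩
  · rw [Finset.prod_ne_zero_iff]
    exact fun w _ => hc0 w
  · intro w hw
    have hw' : w ∈ hE.toFinset := hE.mem_toFinset.mpr hw
    rw [← Finset.mul_prod_erase _ _ hw']
    exact Ideal.mul_mem_right _ _ (hc w)

/-- **Chebotarev-lite, general form.** -/
theorem exists_prime_of_notMem {ζ : K} (hζ : IsPrimitiveRoot ζ p) (H : Subgroup Kˣ)
    (hPH : (powMonoidHom p : Kˣ →* Kˣ).range ≤ H)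
    (hfin : (powMonoidHom p : Kˣ →* Kˣ).range.relIndex H ≠ 0)
    (b : Kˣ) (hb : b ∉ H) (E : Set (HeightOneSpectrum (𝓞 K))) (hE : E.Finite) :
    ∃ w : HeightOneSpectrum (𝓞 K), w ∉ E ∧ (p : 𝓞 K) ∉ w.asIdeal ∧
      (Ideal.absNorm w.asIdeal).Prime ∧ w.valuation K (b : K) = 1 ∧ ¬ IsPowRes p w (b : K) ∧
      ∀ h ∈ H, w.valuation K ((h : Kˣ) : K) = 1 → IsPowRes p w ((h : Kˣ) : K) := by
  classical
  have hpp : p.Prime := Fact.out
  haveI : NeZero p := ⟨hpp.ne_zero⟩
  -- the Kummer field `F = K(ᵖ√H)`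
  have hroot : ∀ a ∈ H, ∃ α : AlgebraicClosure K,
      α ^ p = algebraMap K (AlgebraicClosure K) ((a : Kˣ) : K) := fun a _ =>
    IsAlgClosed.exists_pow_nat_eq _ hpp.pos
  set F := kummerField K (AlgebraicClosure K) p H with hF
  haveI : FiniteDimensional K F := finiteDimensional_kummerField hζ hfin hroot
  haveI : NumberField F := NumberField.of_module_finite K F
  have hKS : kummerSubgroup K F p = H := kummerSubgroup_kummerField hζ hPH hfin hroot
  -- integral representative of `b`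
  obtain ⟨n, d, hd, hnd⟩ := IsFractionRing.div_surjective (A := 𝓞 K) (b : K)
  have hd0 : d ≠ 0 := nonZeroDivisors.ne_zero hd
  have hdK : (d : K) ≠ 0 := by exact_mod_cast hd0
  have hn0 : n ≠ 0 := by
    rintro rfl
    rw [map_zero, zero_div] at hnd
    exact b.ne_zero hnd.symm
  have hnK : (n : K) ≠ 0 := by exact_mod_cast hn0
  have hbnd : (b : K) * (d : K) = (n : K) := by
    rw [← hnd]; field_simp
  set g : 𝓞 K := n * d ^ (p - 1) with hg
  have hgK : (g : K) = (b : K) * (d : K) ^ p := by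
    have hp1 : p = (p - 1) + 1 := (Nat.sub_add_cancel hpp.one_le).symm
    rw [hg]
    show algebraMap (𝓞 K) K (n * d ^ (p - 1)) = _
    rw [map_mul, map_pow]
    show (n : K) * (d : K) ^ (p - 1) = _
    rw [← hbnd]
    conv_rhs => rw [hp1, pow_succ]
    ring
  have hg0 : g ≠ 0 := mul_ne_zero hn0 (pow_ne_zero _ hd0)
  set u : 𝓞 F := algebraMap (𝓞 K) (𝓞 F) g with hu
  have huF : (u : F) = algebraMap K F (g : K) := by
    rw [hu]
    show algebraMap (𝓞 F) F (algebraMap (𝓞 K) (𝓞 F) g) = algebraMap K F (algebraMap (𝓞 K) K g)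
    rw [← IsScalarTower.algebraMap_apply (𝓞 K) (𝓞 F) F, IsScalarTower.algebraMap_apply (𝓞 K) K F]
  have hu0 : u ≠ 0 := by
    rw [hu, Ne, FaithfulSMul.algebraMap_eq_zero_iff]
    exact hg0
  -- `u` is not a `p`-th power in `F`
  have hnot : ¬ ∃ v : F, v ^ p = (u : F) := by
    rintro ⟨v, hv⟩
    apply hb
    rw [← hKS, mem_kummerSubgroup]
    refine ⟨v / algebraMap K F (d : K), ?_⟩
    have hdF : algebraMap K F (d : K) ≠ 0 := (map_ne_zero _).mpr hdK
    rw [div_pow, hv, huF, hgK, map_mul, map_pow, mul_div_assoc, div_self (pow_ne_zero _ hdF),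
      mul_one]
  -- the excluded set of primes of `F`
  obtain ⟨e, he0, heE⟩ := exists_ne_zero_mem_of_finite E hE
  have hz0 : algebraMap (𝓞 K) (𝓞 F) (e * n * d) ≠ 0 := by
    rw [Ne, FaithfulSMul.algebraMap_eq_zero_iff]
    exact mul_ne_zero (mul_ne_zero he0 hn0) hd0
  have hEF := Fermat.Agent.S14.Split27.finite_setOf_mem F hz0
  have hζF : IsPrimitiveRoot (algebraMap K F ζ) p :=
    hζ.map_of_injective (algebraMap K F).injective
  obtain ⟨Q, hQE, hQprime, hQp, hQres⟩ := exists_nonRes_prime hζF u hu0 hnot _ hEF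
  have hQE' : algebraMap (𝓞 K) (𝓞 F) (e * n * d) ∉ Q.asIdeal := hQE
  set w : HeightOneSpectrum (𝓞 K) := primeUnder (K := K) Q with hw
  have hmem : ∀ x : 𝓞 K, x ∈ w.asIdeal ↔ algebraMap (𝓞 K) (𝓞 F) x ∈ Q.asIdeal := fun x => Iff.rfl
  have hend : e * n * d ∉ w.asIdeal := fun h => hQE' ((hmem _).mp h)
  have he_w : e ∉ w.asIdeal := fun h => hend (Ideal.mul_mem_right _ _ (Ideal.mul_mem_right _ _ h))
  have hn_w : n ∉ w.asIdeal := fun h => hend (Ideal.mul_mem_right _ _ (Ideal.mul_mem_left _ _ h))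
  have hd_w : d ∉ w.asIdeal := fun h => hend (Ideal.mul_mem_left _ _ h)
  have hvd : w.valuation K (d : K) = 1 := (w.valuation_eq_one_iff_notMem (K := K)).mpr hd_w
  have hvn : w.valuation K (n : K) = 1 := (w.valuation_eq_one_iff_notMem (K := K)).mpr hn_w
  -- every element of `𝓞 F` is congruent to a natural number modulo `Q`
  have hcong : ∀ z : 𝓞 F, ∃ m : ℕ, z - (m : 𝓞 F) ∈ Q.asIdeal := by
    intro z
    have hcard : Nat.card (𝓞 F ⧸ Q.asIdeal) = Ideal.absNorm Q.asIdeal := by
      rw [Ideal.absNorm_apply, Submodule.cardQuot_apply]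
    obtain ⟨m, hm⟩ := exists_natCast_eq_of_card_prime hQprime hcard (Ideal.Quotient.mk Q.asIdeal z)
    refine ⟨m, ?_⟩
    rw [← Ideal.Quotient.eq_zero_iff_mem, map_sub, map_natCast, hm, sub_self]
  refine ⟨w, ?_, ?_, ?_, ?_, ?_, ?_⟩
  · exact fun hwE => he_w (heE w hwE)
  · intro h
    apply hQp
    have := (hmem _).mp h
    simpa using this
  · -- degree one
    have hinj : Function.Injective
        (Ideal.quotientMap Q.asIdeal (algebraMap (𝓞 K) (𝓞 F)) (le_refl w.asIdeal)) :=
      Ideal.quotientMap_injective' (le_refl _)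
    have hdvd : Nat.card (𝓞 K ⧸ w.asIdeal) ∣ Nat.card (𝓞 F ⧸ Q.asIdeal) :=
      AddSubgroup.card_dvd_of_injective
        (Ideal.quotientMap Q.asIdeal (algebraMap (𝓞 K) (𝓞 F))
          (le_refl w.asIdeal)).toAddMonoidHom hinj
    have h1 : Nat.card (𝓞 K ⧸ w.asIdeal) = Ideal.absNorm w.asIdeal := by
      rw [Ideal.absNorm_apply, Submodule.cardQuot_apply]
    have h2 : Nat.card (𝓞 F ⧸ Q.asIdeal) = Ideal.absNorm Q.asIdeal := by
      rw [Ideal.absNorm_apply, Submodule.cardQuot_apply]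
    rw [h1, h2] at hdvd
    rcases (Nat.dvd_prime hQprime).mp hdvd with h | h
    · exact absurd (Ideal.absNorm_eq_one_iff.mp h) w.isPrime.ne_top
    · rw [h]; exact hQprime
  · -- `b` is a `w`-unit
    have : (b : K) = (n : K) / (d : K) := hnd.symm
    rw [this, map_div₀, hvd, hvn, div_one]
  · -- `b` is not a residue
    intro hres
    have h1 : IsPowRes p w ((g : 𝓞 K) : K) := by
      rw [hgK]; exact (isPowRes_mul_pow_iff hvd).mpr hres
    obtain ⟨x, hx⟩ := (isPowRes_algebraMap_iff hpp.ne_zero g).mp h1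
    apply hQres
    refine ⟨algebraMap (𝓞 K) (𝓞 F) x, ?_⟩
    have := (hmem _).mp hx
    simpa [hu, map_sub, map_pow] using this
  · -- the `w`-units of `H` are residues
    intro h hH hvh
    obtain ⟨n', ⟨d', hd'⟩, hnd'⟩ :=
      w.exists_primeCompl_mul_eq_of_integer (K := K) ((h : Kˣ) : K) hvh.le
    have hvd' : w.valuation K ((d' : 𝓞 K) : K) = 1 :=
      (w.valuation_eq_one_iff_notMem (K := K)).mpr hd'
    have hd'K : ((d' : 𝓞 K) : K) ≠ 0 := by
      intro h0; rw [h0, map_zero] at hvd'; exact zero_ne_one hvd'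
    set g' : 𝓞 K := n' * d' ^ (p - 1) with hg'
    have hg'K : (g' : K) = ((h : Kˣ) : K) * ((d' : 𝓞 K) : K) ^ p := by
      have hp1 : p = (p - 1) + 1 := (Nat.sub_add_cancel hpp.one_le).symm
      rw [hg']
      show algebraMap (𝓞 K) K (n' * d' ^ (p - 1)) = _
      rw [map_mul, map_pow]
      show (n' : K) * ((d' : 𝓞 K) : K) ^ (p - 1) = _
      have : (n' : K) = ((h : Kˣ) : K) * ((d' : 𝓞 K) : K) := hnd'.symm
      rw [this]
      conv_rhs => rw [hp1, pow_succ]
      ring
    -- a `p`-th root of `g'` in `𝓞 F`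
    have hmemH : h ∈ kummerSubgroup K F p := by rw [hKS]; exact hH
    obtain ⟨η, hη⟩ := mem_kummerSubgroup.mp hmemH
    set γ : F := η * algebraMap K F ((d' : 𝓞 K) : K) with hγ
    have hγp : γ ^ p = algebraMap K F (g' : K) := by
      rw [hγ, mul_pow, hη, ← map_pow, ← map_mul, hg'K]
    have hγint : IsIntegral ℤ γ := by
      have hgi : IsIntegral ℤ (algebraMap K F (g' : K)) :=
        (RingOfIntegers.isIntegral_coe g').map (IsScalarTower.toAlgHom ℤ K F)
      rw [← hγp] at hgi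
      exact IsIntegral.of_pow hpp.pos hgi
    set γ' : 𝓞 F := ⟨γ, hγint⟩ with hγ'
    have hγ'p : γ' ^ p = algebraMap (𝓞 K) (𝓞 F) g' := by
      apply RingOfIntegers.ext
      show algebraMap (𝓞 F) F (γ' ^ p) = algebraMap (𝓞 F) F (algebraMap (𝓞 K) (𝓞 F) g')
      rw [← IsScalarTower.algebraMap_apply (𝓞 K) (𝓞 F) F,
        IsScalarTower.algebraMap_apply (𝓞 K) K F, map_pow]
      show γ ^ p = algebraMap K F (algebraMap (𝓞 K) K g')
      exact hγp
    obtain ⟨m, hm⟩ := hcong γ'
    have hmp : algebraMap (𝓞 K) (𝓞 F) ((m : 𝓞 K) ^ p - g') ∈ Q.asIdeal := by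
      rw [map_sub, map_pow, map_natCast, ← hγ'p]
      have h1 : γ' ^ p - (m : 𝓞 F) ^ p ∈ Q.asIdeal := by
        rw [← geom_sum₂_mul]
        exact Ideal.mul_mem_left _ _ hm
      have := Q.asIdeal.neg_mem h1
      rwa [neg_sub] at this
    have hres' : IsPowRes p w ((g' : 𝓞 K) : K) := isPowRes_of_mem ((hmem _).mpr hmp)
    rw [hg'K] at hres'
    exact (isPowRes_mul_pow_iff hvd').mp hres'

end Main

/-! ### The special case `H = ⟨a⟩ · Kˣᵖ` (the hypothesis `CL` of `SecondIneq74`) -/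

section Single

variable {K : Type} [Field K] [NumberField K] {p : ℕ} [Fact p.Prime]

/-- `⟨a⟩ · Gᵖ` has finite index over `Gᵖ` (any commutative group). -/
theorem relIndex_zpowers_sup_ne_zero {G : Type*} [CommGroup G] (a : G) :
    (powMonoidHom p : G →* G).range.relIndex
      (Subgroup.zpowers a ⊔ (powMonoidHom p : G →* G).range) ≠ 0 := by
  have hpp : p.Prime := Fact.out
  set P := (powMonoidHom p : G →* G).range with hP
  set H := Subgroup.zpowers a ⊔ P with hH
  have haH : ∀ i : ℕ, a ^ i ∈ H := fun i =>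
    (le_sup_left : Subgroup.zpowers a ≤ H) (Subgroup.pow_mem _ (Subgroup.mem_zpowers a) i)
  let f : Fin p → H ⧸ P.subgroupOf H := fun i => QuotientGroup.mk ⟨a ^ (i : ℕ), haH i⟩
  have hf : Function.Surjective f := by
    intro q
    obtain ⟨⟨h, hh⟩, rfl⟩ := QuotientGroup.mk_surjective q
    obtain ⟨y, hy, z, hz, rfl⟩ := Subgroup.mem_sup.mp hh
    obtain ⟨k, rfl⟩ := Subgroup.mem_zpowers_iff.mp hy
    obtain ⟨x, rfl⟩ := hz
    have hp0 : (p : ℤ) ≠ 0 := by exact_mod_cast hpp.ne_zero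
    have hmod0 : 0 ≤ k % (p : ℤ) := Int.emod_nonneg k hp0
    have hmodlt : k % (p : ℤ) < p := Int.emod_lt_of_pos k (by exact_mod_cast hpp.pos)
    have hlt : (k % (p : ℤ)).toNat < p := by
      have := (Int.toNat_lt hmod0).mpr hmodlt
      exact this
    refine ⟨⟨(k % (p : ℤ)).toNat, hlt⟩, ?_⟩
    show (QuotientGroup.mk _ : H ⧸ P.subgroupOf H) = QuotientGroup.mk _
    rw [QuotientGroup.eq]
    rw [Subgroup.mem_subgroupOf]
    refine ⟨a ^ (k / (p : ℤ)) * x, ?_⟩
    simp only [powMonoidHom_apply, Subgroup.coe_mul, Subgroup.coe_inv, Subgroup.coe_mk]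
    have h1 : a ^ ((k % (p : ℤ)).toNat) = a ^ (k % (p : ℤ)) := by
      rw [← zpow_natCast, Int.toNat_of_nonneg hmod0]
    rw [h1]
    have h2 : a ^ k = a ^ (k % (p : ℤ)) * (a ^ (k / (p : ℤ))) ^ p := by
      rw [← zpow_natCast (a ^ (k / (p : ℤ))) p, ← zpow_mul, ← zpow_add]
      congr 1
      rw [mul_comm]
      exact (Int.emod_add_mul_ediv k p).symm
    rw [h2, mul_pow]
    group
  haveI : Finite (H ⧸ P.subgroupOf H) := Finite.of_surjective f hf
  haveI : (P.subgroupOf H).FiniteIndex := Subgroup.finiteIndex_of_finite_quotient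
  exact Subgroup.FiniteIndex.index_ne_zero

/-- The primes at which a nonzero element of `K` is not a unit are finite in number. -/
theorem finite_setOf_valuation_ne_one (x : Kˣ) :
    {w : HeightOneSpectrum (𝓞 K) | w.valuation K (x : K) ≠ 1}.Finite := by
  obtain ⟨n, d, hd, hnd⟩ := IsFractionRing.div_surjective (A := 𝓞 K) (x : K)
  have hd0 : d ≠ 0 := nonZeroDivisors.ne_zero hd
  have hn0 : n ≠ 0 := by
    rintro rfl
    rw [map_zero, zero_div] at hnd
    exact x.ne_zero hnd.symm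
  refine ((Fermat.Agent.S14.Split27.finite_setOf_mem K hn0).union
    (Fermat.Agent.S14.Split27.finite_setOf_mem K hd0)).subset ?_
  intro w hw
  by_contra hcon
  rw [Set.mem_union, not_or] at hcon
  apply hw
  have hvn : w.valuation K (algebraMap (𝓞 K) K n) = 1 :=
    (w.valuation_eq_one_iff_notMem (K := K)).mpr hcon.1
  have hvd : w.valuation K (algebraMap (𝓞 K) K d) = 1 :=
    (w.valuation_eq_one_iff_notMem (K := K)).mpr hcon.2
  rw [← hnd, map_div₀, hvn, hvd, div_one]

/-- **Chebotarev-lite** (`CL` of `SecondIneq74`, residue form): if `b ∉ ⟨a⟩ · Kˣᵖ` then outside any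
finite set of primes there is a prime `w ∤ p` of degree one at which `a` and `b` are units, `a` is a
`p`-th power residue and `b` is not. -/
theorem exists_prime_cl {ζ : K} (hζ : IsPrimitiveRoot ζ p) (a b : Kˣ)
    (hb : b ∉ Subgroup.zpowers a ⊔ (powMonoidHom p : Kˣ →* Kˣ).range)
    (E : Set (HeightOneSpectrum (𝓞 K))) (hE : E.Finite) :
    ∃ w : HeightOneSpectrum (𝓞 K), w ∉ E ∧ (p : 𝓞 K) ∉ w.asIdeal ∧
      (Ideal.absNorm w.asIdeal).Prime ∧ w.valuation K (a : K) = 1 ∧ w.valuation K (b : K) = 1 ∧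
      IsPowRes p w (a : K) ∧ ¬ IsPowRes p w (b : K) := by
  obtain ⟨w, hwE, hwp, hwdeg, hwb, hnres, hres⟩ :=
    exists_prime_of_notMem hζ (Subgroup.zpowers a ⊔ (powMonoidHom p : Kˣ →* Kˣ).range)
      le_sup_right (relIndex_zpowers_sup_ne_zero a) b hb
      (E ∪ {w | w.valuation K (a : K) ≠ 1}) (hE.union (finite_setOf_valuation_ne_one a))
  have hwa : w.valuation K (a : K) = 1 := by
    by_contra h
    exact hwE (Or.inr h)
  exact ⟨w, fun h => hwE (Or.inl h), hwp, hwdeg, hwa, hwb,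
    hres a ((le_sup_left : Subgroup.zpowers a ≤ _) (Subgroup.mem_zpowers a)) hwa, hnres⟩

end Single

end Fermat.Agent.S55.AuxPrimes57
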